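import Fermat.Agent.LT.T5.H74.KerPer
import Fermat.Agent.LT.T3.H315.ConstTermT

/-!
# Row LT, tower T5, sub-leaf T5.04b `KerCuspC74` (helper74): the constant term

OFF-MAIN.  For a bounded continuous function `ψ`, left invariant under `GL₂(K)` and right
invariant under the ray generator `r`, the constant term `Ψ(g) = ∫_D ψ(n(x) g) dx` is an
`IsBorelInvariantFn` in the sense of T5/Spec v4 (INCLUDING the field `ray`), and the constant
term of `R(φ)ψ` is `R(φ)Ψ`; hence `R(φ)ψ` is cuspidal for an Eisenstein-killing `φ`.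
(Same proof as `T3.H315.constTermT_aux315` of helper315, with the explicit `Ψ`; the lemmas on
fundamental domains are those of helper237, `LT/T3/H237/ConstTerm.lean`.)
-/

set_option autoImplicit false

open IsDedekindDomain NumberField MeasureTheory
open scoped MatrixGroups ComplexConjugate Pointwise ENNReal

noncomputable section

namespace Fermat.Agent.LT.T5.H74

open Fermat.Agent.LT.H556.A0 Fermat.Agent.LT.T5

attribute [local instance] Fermat.Agent.LT.T5.instMeasurableSpaceG

variable {K : Type} [Field K] [NumberField K]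

/-- `x ↦ ψ(n(x) g)` is `K`-periodic. -/
theorem isPer_unip74 (ψ : G K → ℂ) (hψ : T3.IsAutFn K ψ) (g : G K) :
    T3.H237.IsPer237 K (fun x => ψ (T3.unip K x * g)) := by
  intro ξ x
  show ψ (T3.unip K (x + algebraMap K (Adl K) ξ) * g) = ψ (T3.unip K x * g)
  rw [add_comm, T3.H237.unip_add237, T3.H237.unip_emb237, mul_assoc]
  exact hψ.left_inv _ _

section Main

variable [MeasurableSpace (Adl K)] [BorelSpace (Adl K)]
  [LocallyCompactSpace (Adl K)] [SecondCountableTopology (Adl K)]
  [SecondCountableTopology (G K)]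

/-- **The constant term is Borel-invariant** (T5/Spec v4, with the field `ray`). -/
theorem isBorelInvariantFn_constTerm74
    (hcoc : ∃ C : Set (Adl K), IsCompact C ∧ ∀ x : Adl K, ∃ ξ : K,
      x - algebraMap K (Adl K) ξ ∈ C)
    (r : G K) (hr : IsRayGen r) (ψ : G K → ℂ) (hψ : T3.IsAutFn K ψ)
    (hψr : ∀ g : G K, ψ (g * r) = ψ g)
    (μ' : Measure (Adl K)) [μ'.IsAddHaarMeasure] (D : Set (Adl K))
    (hD : IsAddFundamentalDomain ((algebraMap K (Adl K)).toAddMonoidHom.range) D μ') :
    IsBorelInvariantFn (fun g => ∫ x in D, ψ (T3.unip K x * g) ∂μ') := by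
  obtain ⟨C, hC⟩ := hψ.bdd
  have hDfin : μ' D < ⊤ := T3.H237.measure_fundDom_lt_top237 K μ' hcoc D hD
  have : IsFiniteMeasure (μ'.restrict D) := ⟨by rw [Measure.restrict_apply_univ]; exact hDfin⟩
  have hper := isPer_unip74 ψ hψ
  refine ⟨?_, ?_, ?_, ⟨r, hr, ?_⟩⟩
  · -- continuity
    refine continuous_of_dominated (bound := fun _ => C) ?_ ?_ ?_ ?_
    · intro g
      exact (hψ.cont.comp (continuous_unip74.mul continuous_const)).aestronglyMeasurable
    · intro g
      exact Filter.Eventually.of_forall fun x => hC _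
    · exact integrable_const _
    · exact Filter.Eventually.of_forall fun x =>
        hψ.cont.comp (continuous_const.mul continuous_id)
  · -- invariance under `N(𝔸_K)`
    intro n y hn g
    have hn' : n = T3.unip K y := Units.ext (by rw [hn, T3.unip_coe])
    subst hn'
    show ∫ x in D, ψ (T3.unip K x * (T3.unip K y * g)) ∂μ' = ∫ x in D, ψ (T3.unip K x * g) ∂μ'
    have h := T3.H237.setIntegral_add_right237 K μ' D hD _ (hper g) y
    rw [← h]
    refine integral_congr_ae (Filter.Eventually.of_forall fun x => ?_)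
    show ψ (T3.unip K x * (T3.unip K y * g)) = ψ (T3.unip K (x + y) * g)
    rw [T3.H237.unip_add237, mul_assoc]
  · -- invariance under the rational diagonal matrices
    intro t a b ht g
    obtain ⟨ha, hb⟩ := T3.H315.diag_entries_ne_zero315 K t a b ht
    have hab : a * b⁻¹ ≠ 0 := mul_ne_zero ha (inv_ne_zero hb)
    have hinv : (((Units.mk0 (a * b⁻¹) hab)⁻¹ : Kˣ) : K) = a⁻¹ * b := by
      rw [Units.val_inv_eq_inv_val, Units.val_mk0, mul_inv, inv_inv]
    show ∫ x in D, ψ (T3.unip K x * (ratG t * g)) ∂μ' = ∫ x in D, ψ (T3.unip K x * g) ∂μ'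
    have h := T3.H237.setIntegral_mulK237 K μ' hcoc D hD _ (hper g) (Units.mk0 (a * b⁻¹) hab)
    rw [← h]
    refine integral_congr_ae (Filter.Eventually.of_forall fun x => ?_)
    show ψ (T3.unip K x * (ratG t * g))
      = ψ (T3.unip K (algebraMap K (Adl K) (((Units.mk0 (a * b⁻¹) hab)⁻¹ : Kˣ) : K) * x) * g)
    rw [hinv, ← mul_assoc]
    show ψ (T3.unip K x * Matrix.GeneralLinearGroup.map (algebraMap K (Adl K)) t * g) = _
    rw [T3.H315.unip_mul_diag315 K t a b ht, mul_assoc]
    exact hψ.left_inv _ _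
  · -- invariance under the ray generator
    intro g
    show ∫ x in D, ψ (T3.unip K x * (g * r)) ∂μ' = ∫ x in D, ψ (T3.unip K x * g) ∂μ'
    refine integral_congr_ae (Filter.Eventually.of_forall fun x => ?_)
    show ψ (T3.unip K x * (g * r)) = ψ (T3.unip K x * g)
    rw [← mul_assoc, hψr]

/-- **Fubini**: the constant term of `R(φ)ψ` is `R(φ)` of the constant term of `ψ`. -/
theorem constTerm_Rconv74
    (hcoc : ∃ C : Set (Adl K), IsCompact C ∧ ∀ x : Adl K, ∃ ξ : K,
      x - algebraMap K (Adl K) ξ ∈ C)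
    (μ : Measure (G K)) [μ.IsHaarMeasure] [SFinite μ]
    (φ : G K → ℂ) (hφ : Continuous φ) (hφc : HasCompactSupport φ)
    (ψ : G K → ℂ) (hψ : T3.IsAutFn K ψ)
    (μ' : Measure (Adl K)) [μ'.IsAddHaarMeasure] (D : Set (Adl K))
    (hD : IsAddFundamentalDomain ((algebraMap K (Adl K)).toAddMonoidHom.range) D μ')
    (g : G K) :
    ∫ x in D, Rconv μ φ ψ (T3.unip K x * g) ∂μ'
      = Rconv μ φ (fun g' => ∫ x in D, ψ (T3.unip K x * g') ∂μ') g := by
  have : BorelSpace (G K) := borelSpaceG74
  obtain ⟨C, hC⟩ := hψ.bdd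
  have hDfin : μ' D < ⊤ := T3.H237.measure_fundDom_lt_top237 K μ' hcoc D hD
  have : IsFiniteMeasure (μ'.restrict D) := ⟨by rw [Measure.restrict_apply_univ]; exact hDfin⟩
  unfold Rconv
  have hfi : Integrable φ μ := hφ.integrable_of_hasCompactSupport hφc
  have hb : Integrable (fun z : Adl K × G K => (fun _ : Adl K => C) z.1 * (fun h => ‖φ h‖) z.2)
      ((μ'.restrict D).prod μ) :=
    Integrable.mul_prod (integrable_const C) hfi.norm
  have hcont : Continuous (Function.uncurry fun (x : Adl K) (h : G K) =>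
      φ h * ψ (T3.unip K x * g * h)) := by
    refine Continuous.mul (hφ.comp continuous_snd) (hψ.cont.comp ?_)
    exact ((continuous_unip74.comp continuous_fst).mul continuous_const).mul continuous_snd
  have hint : Integrable (Function.uncurry fun (x : Adl K) (h : G K) =>
      φ h * ψ (T3.unip K x * g * h)) ((μ'.restrict D).prod μ) := by
    refine hb.mono' hcont.aestronglyMeasurable (Filter.Eventually.of_forall ?_)
    rintro ⟨x, h⟩
    show ‖φ h * ψ (T3.unip K x * g * h)‖ ≤ C * ‖φ h‖
    rw [norm_mul, mul_comm]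
    exact mul_le_mul_of_nonneg_right (hC _) (norm_nonneg _)
  rw [integral_integral_swap hint]
  refine integral_congr_ae (Filter.Eventually.of_forall fun h => ?_)
  show ∫ x in D, φ h * ψ (T3.unip K x * g * h) ∂μ'
    = φ h * (∫ x in D, ψ (T3.unip K x * (g * h)) ∂μ')
  rw [integral_const_mul]
  simp only [mul_assoc]

/-- **`R(φ)ψ` is cuspidal** for an Eisenstein-killing `φ` (operator form, Spec v4) and a bounded
continuous automorphic `ψ` which is invariant under the ray generator. -/
theorem cuspidal_Rconv74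
    (hcoc : ∃ C : Set (Adl K), IsCompact C ∧ ∀ x : Adl K, ∃ ξ : K,
      x - algebraMap K (Adl K) ξ ∈ C)
    (μ : Measure (G K)) [μ.IsHaarMeasure] [SFinite μ]
    (φ : G K → ℂ) (hφ : Continuous φ) (hφc : HasCompactSupport φ) (hek : IsEK μ φ)
    (r : G K) (hr : IsRayGen r) (ψ : G K → ℂ) (hψ : T3.IsAutFn K ψ)
    (hψr : ∀ g : G K, ψ (g * r) = ψ g)
    (μ' : Measure (Adl K)) [μ'.IsAddHaarMeasure] (D : Set (Adl K))
    (hD : IsAddFundamentalDomain ((algebraMap K (Adl K)).toAddMonoidHom.range) D μ')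
    (g : G K) :
    ∫ x in D, Rconv μ φ ψ (T3.unip K x * g) ∂μ' = 0 := by
  rw [constTerm_Rconv74 hcoc μ φ hφ hφc ψ hψ μ' D hD g]
  exact hek _ (isBorelInvariantFn_constTerm74 hcoc r hr ψ hψ hψr μ' D hD) g

end Main

end Fermat.Agent.LT.T5.H74

end
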