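import Fermat.Agent.LT.T5.H74.Range
import Fermat.Agent.LT.T5.H599.Ray

/-!
# Row LT, tower T5, leaf T5.04 `LeafRange` (helper74): the inputs from T1 discharged

OFF-MAIN.  `leafRange_T1_74 : T1.T1Out K → RowBoundC74 𝔫 τ → KerCuspC74 𝔫 τ → LeafRange 𝔫 τ`.
The local finiteness `LocFinC74` is `H599.finite_iota_mem599` (helper599, byte-identical copy of
`LT/T5/H599/Ray.lean`), the other inputs are interface Props of T1 (`T3.In…` = `T1.…` unfolded).
-/

set_option autoImplicit false

open IsDedekindDomain NumberField MeasureTheory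
open scoped MatrixGroups ComplexConjugate Pointwise ENNReal

noncomputable section

namespace Fermat.Agent.LT.T5.H74

open Fermat.Agent.LT.H556.A0 Fermat.Agent.LT.T5

attribute [local instance] Fermat.Agent.LT.T5.instMeasurableSpaceG

variable {K : Type} [Field K] [NumberField K]

/-- Local finiteness of `GL₂(K) ⟨r⟩` from `T1.AdNormC` and `T1.DiscreteC` (helper599). -/
theorem locFinC_of_T1_74 (hAN : T1.AdNormC K) (hD : T1.DiscreteC K) : LocFinC74 K := by
  intro r hr C hC
  have h := H599.finite_iota_mem599 hAN hD hr hC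
  refine (h.image (fun p : H599.Gam599 K => (p.1, Multiplicative.toAdd p.2))).subset ?_
  rintro ⟨γ, m⟩ hp
  refine ⟨(γ, Multiplicative.ofAdd m), ?_, rfl⟩
  show H599.iota599 hr (γ, Multiplicative.ofAdd m) ∈ C
  rw [H599.iota_mk599]
  exact hp

/-- **T5.04 `LeafRange`** from the output of T1 and the two analytic inputs. -/
theorem leafRange_T1_74 (𝔫 : Ideal (𝓞 K)) (τ : G K → ℂ) (h : T1.T1Out K)
    (hrow : RowBoundC74 𝔫 τ) (hcusp : KerCuspC74 𝔫 τ) : LeafRange 𝔫 τ :=
  leafRange_of74 𝔫 τ h.locComp h.adeleLattice h.addFundDom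
    (locFinC_of_T1_74 h.adNorm h.discrete) hrow hcusp

end Fermat.Agent.LT.T5.H74

end
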