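import Fermat.Agent.LT.T5.H74.KerUnfold
import Fermat.Agent.LT.T5.H74.KerConst
import Fermat.Agent.LT.T5.H74.RangeT1

/-!
# Row LT, tower T5, sub-leaf T5.04b `KerCuspC74` (helper74): THE KERNEL IS CUSPIDAL

OFF-MAIN.  `kerCuspC_T1_74 : T1.T1Out K → KerCuspC74 𝔫 τ` : for an Eisenstein-killing test function
`φ` (operator form of T5/Spec v4) the function `x ↦ K_φ(x, z)` has vanishing constant term, for
EVERY `z`.

Proof.  Let `c(y) = ∫_D K_φ(n(t) g, y) dt`.  For `β ∈ C_c(GL₂(𝔸_K))` with periodisation `ψ_β`,
`∫_G c β = ∫_D (∫_G K_φ(n(t) g, y) β(y) dy) dt = ∫_D R(φ)ψ_β(n(t) g) dt = 0`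
(Fubini, `Rconv_per74`, `cuspidal_Rconv74`).  `c` is continuous, so `c = 0`
(take `β = conj(c) χ`, `χ` a bump; a Haar measure is positive on open sets).
-/

set_option autoImplicit false

open IsDedekindDomain NumberField MeasureTheory
open scoped MatrixGroups ComplexConjugate Pointwise ENNReal

noncomputable section

namespace Fermat.Agent.LT.T5.H74

open Fermat.Agent.LT.H556.A0 Fermat.Agent.LT.T5

attribute [local instance] Fermat.Agent.LT.T5.instMeasurableSpaceG

variable {K : Type} [Field K] [NumberField K]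

/-- A continuous function which is orthogonal to every continuous function of compact support
vanishes (Haar measure on a locally compact group). -/
theorem eq_zero_of_forall_integral_mul74 [LocallyCompactSpace (G K)]
    (μ : Measure (G K)) [μ.IsHaarMeasure] (c : G K → ℂ) (hc : Continuous c)
    (h : ∀ β : G K → ℂ, Continuous β → HasCompactSupport β → ∫ y, c y * β y ∂μ = 0)
    (y₀ : G K) : c y₀ = 0 := by
  have : BorelSpace (G K) := borelSpaceG74
  obtain ⟨χ, hχ1, -, hχc, hχ01⟩ := exists_continuous_one_zero_of_isCompact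
    (isCompact_singleton (x := y₀)) isClosed_empty (Set.disjoint_empty _)
  -- the real function `|c|² χ`
  set u : G K → ℝ := fun y => Complex.normSq (c y) * χ y with hu
  have hucont : Continuous u := (Complex.continuous_normSq.comp hc).mul χ.continuous
  have hucs : HasCompactSupport u := hχc.mul_left
  have hu0 : 0 ≤ u := fun y => mul_nonneg (Complex.normSq_nonneg _) (hχ01 y).1
  have huint : Integrable u μ := hucont.integrable_of_hasCompactSupport hucs
  have hβ := h (fun y => conj (c y) * ((χ y : ℝ) : ℂ))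
    ((Complex.continuous_conj.comp hc).mul (Complex.continuous_ofReal.comp χ.continuous))
    (HasCompactSupport.mul_left
      (hχc.comp_left (g := fun t : ℝ => (t : ℂ)) Complex.ofReal_zero))
  have he : ∀ y : G K, c y * (conj (c y) * ((χ y : ℝ) : ℂ)) = ((u y : ℝ) : ℂ) := by
    intro y
    rw [← mul_assoc, Complex.mul_conj, hu]
    push_cast
    rfl
  rw [integral_congr_ae (Filter.Eventually.of_forall he), integral_complex_ofReal] at hβ
  have hint0 : ∫ y, u y ∂μ = 0 := by exact_mod_cast hβ
  have hae : u =ᵐ[μ] 0 := (integral_eq_zero_iff_of_nonneg hu0 huint).1 hint0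
  have hzero : u = 0 := (Continuous.ae_eq_iff_eq μ hucont continuous_const).1 hae
  have hy : u y₀ = 0 := congrFun hzero y₀
  rw [hu] at hy
  simp only at hy
  rw [hχ1 (Set.mem_singleton y₀)] at hy
  simpa using hy

section Main

variable [MeasurableSpace (Adl K)] [BorelSpace (Adl K)]
  [LocallyCompactSpace (Adl K)] [SecondCountableTopology (Adl K)]
  [LocallyCompactSpace (G K)] [SecondCountableTopology (G K)]

/-- **The kernel of an Eisenstein-killing function is cuspidal in the first variable**
(integral form, with the topological facts as instances). -/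
theorem integral_ker0_unip_eq_zero74
    (hcoc : ∃ C : Set (Adl K), IsCompact C ∧ ∀ x : Adl K, ∃ ξ : K,
      x - algebraMap K (Adl K) ξ ∈ C)
    (μ : Measure (G K)) [μ.IsHaarMeasure] [μ.IsMulRightInvariant]
    (r : G K) (hr : IsRayGen r) (hfin : LocFin74 r)
    (φ : G K → ℂ) (hφ : Continuous φ) (hφc : HasCompactSupport φ) (hek : IsEK μ φ)
    (μ' : Measure (Adl K)) [μ'.IsAddHaarMeasure] (D : Set (Adl K))
    (hD : IsAddFundamentalDomain ((algebraMap K (Adl K)).toAddMonoidHom.range) D μ')
    (g z : G K) :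
    ∫ t in D, ker0 r φ (T3.unip K t * g) z ∂μ' = 0 := by
  have : BorelSpace (G K) := borelSpaceG74
  have hcen : ∀ g : G K, r * g = g * r := isRayGen_central74 r hr
  have hDfin : μ' D < ⊤ := T3.H237.measure_fundDom_lt_top237 K μ' hcoc D hD
  have : IsFiniteMeasure (μ'.restrict D) := ⟨by rw [Measure.restrict_apply_univ]; exact hDfin⟩
  obtain ⟨M, -, hM⟩ := norm_ker0_unip_le74 hcoc r hcen hfin φ hφ hφc g
  have hcontK : Continuous fun p : Adl K × G K => ker0 r φ (T3.unip K p.1 * g) p.2 := by
    have h := continuous_ker0_74 r hcen hfin φ hφ hφc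
    have h2 : Continuous fun p : Adl K × G K => ((T3.unip K p.1 * g, p.2) : G K × G K) :=
      Continuous.prodMk ((continuous_unip74.comp continuous_fst).mul continuous_const)
        continuous_snd
    show Continuous ((fun q : G K × G K => ker0 r φ q.1 q.2) ∘
      fun p : Adl K × G K => ((T3.unip K p.1 * g, p.2) : G K × G K))
    exact Continuous.comp h h2
  -- the constant term as a function of the second variable
  set c : G K → ℂ := fun y => ∫ t in D, ker0 r φ (T3.unip K t * g) y ∂μ' with hc
  have hccont : Continuous c := by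
    refine continuous_of_dominated (bound := fun _ => M) ?_ ?_ ?_ ?_
    · intro y
      have h2 : Continuous fun t : Adl K => ((t, y) : Adl K × G K) :=
        Continuous.prodMk continuous_id continuous_const
      have h3 : Continuous ((fun p : Adl K × G K => ker0 r φ (T3.unip K p.1 * g) p.2) ∘
          fun t : Adl K => ((t, y) : Adl K × G K)) := hcontK.comp h2
      exact h3.aestronglyMeasurable
    · intro y
      exact Filter.Eventually.of_forall fun t => hM t y
    · exact integrable_const _
    · refine Filter.Eventually.of_forall fun t => ?_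
      exact continuous_ker0_right74 r hcen hfin φ hφ hφc (T3.unip K t * g)
  refine eq_zero_of_forall_integral_mul74 μ c hccont ?_ z
  intro β hβ hβc
  have hβi : Integrable β μ := hβ.integrable_of_hasCompactSupport hβc
  -- Fubini
  have hint : Integrable
      (Function.uncurry fun (t : Adl K) (y : G K) => ker0 r φ (T3.unip K t * g) y * β y)
      ((μ'.restrict D).prod μ) := by
    have hb : Integrable (fun p : Adl K × G K => (fun _ : Adl K => M) p.1 * (fun y => ‖β y‖) p.2)
        ((μ'.restrict D).prod μ) :=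
      Integrable.mul_prod (integrable_const M) hβi.norm
    refine hb.mono' ?_ (Filter.Eventually.of_forall ?_)
    · exact (hcontK.mul (hβ.comp continuous_snd)).aestronglyMeasurable
    · rintro ⟨t, y⟩
      show ‖ker0 r φ (T3.unip K t * g) y * β y‖ ≤ M * ‖β y‖
      rw [norm_mul]
      exact mul_le_mul_of_nonneg_right (hM t y) (norm_nonneg _)
  have h1 : ∫ y, c y * β y ∂μ
      = ∫ y, (∫ t in D, ker0 r φ (T3.unip K t * g) y * β y ∂μ') ∂μ := by
    refine integral_congr_ae (Filter.Eventually.of_forall fun y => ?_)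
    exact (integral_mul_const (β y) (fun t => ker0 r φ (T3.unip K t * g) y)).symm
  rw [h1, ← integral_integral_swap hint]
  have h2 : ∀ t : Adl K, ∫ y, ker0 r φ (T3.unip K t * g) y * β y ∂μ
      = Rconv μ φ (per74 r β) (T3.unip K t * g) :=
    fun t => (Rconv_per74 μ r hcen hfin φ β hφ hφc hβ hβc (T3.unip K t * g)).symm
  rw [integral_congr_ae (Filter.Eventually.of_forall h2)]
  exact cuspidal_Rconv74 hcoc μ φ hφ hφc hek r hr (per74 r β)
    (isAutFn_per74 r hcen hfin β hβ hβc) (per_mul_ray74 r β) μ' D hD g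

end Main

/-- **T5.04b `KerCuspC74`** from the interface Props of T1 (in the form of T3). -/
theorem kerCuspC_of74 (𝔫 : Ideal (𝓞 K)) (τ : G K → ℂ) (hloc : T3.InLocCompC K)
    (hlat : T3.InLatticeC K) (hfin : LocFinC74 K) : KerCuspC74 𝔫 τ := by
  obtain ⟨⟨hlcA, -, hscA⟩, hlcG, -, hscG⟩ := hloc
  intro μ F r hF hr φ hφ hek _ z _ μ' hμ' D hD n hn g
  letI : MeasurableSpace (Adl K) := borel (Adl K)
  have : BorelSpace (Adl K) := ⟨rfl⟩
  have hn' : n = T3.unip K := eq_unip74 n hn
  subst hn'
  have := hF.haar
  have := isMulRightInvariant_of_frame74 μ F hF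
  exact integral_ker0_unip_eq_zero74 hlat.2.2 μ r hr (hfin r hr) φ hφ.cont hφ.supp hek μ' D hD g z

/-- **T5.04b `KerCuspC74`**, from the output of T1. -/
theorem kerCuspC_T1_74 (𝔫 : Ideal (𝓞 K)) (τ : G K → ℂ) (h : T1.T1Out K) : KerCuspC74 𝔫 τ :=
  kerCuspC_of74 𝔫 τ h.locComp h.adeleLattice (locFinC_of_T1_74 h.adNorm h.discrete)

/-- **T5.04 `LeafRange`** from the output of T1 and the uniform row bound ALONE. -/
theorem leafRange_rowBound74 (𝔫 : Ideal (𝓞 K)) (τ : G K → ℂ) (h : T1.T1Out K)
    (hrow : RowBoundC74 𝔫 τ) : LeafRange 𝔫 τ :=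
  leafRange_T1_74 𝔫 τ h hrow (kerCuspC_T1_74 𝔫 τ h)

end Fermat.Agent.LT.T5.H74

end
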