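import Fermat.Agent.LT.T5.H74.RangeCusp

/-!
# Row LT, tower T5, leaf T5.04 `LeafRange` (helper74): ASSEMBLY (conditional delivery)

OFF-MAIN (Spec v4 = FREEZE, origin/helper32@eb7e4c138, sha256 f2d97e70548f).
`leafRange_of74 : INPUTS → T5.LeafRange 𝔫 τ`.

## Falsity audit of `T5.LeafRange` (helper74)

TRUE as stated, but NOT a consequence of the statement `T5.LeafHS0` alone:

* automorphy, type `τ`  — unconditional (`isAutomorphicFn_range74`, file `RangeAut`);
* continuity            — local finiteness of `GL₂(K) ⟨r⟩` in `GL₂(𝔸_K)` (`LocFin74`);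
* boundedness           — needs a bound of the rows `‖K_φ(x, ·)‖_{L²(F)}` UNIFORM in `x`
                          (`RowBound74`); `LeafHS0` only bounds almost every row;
* vanishing constant term — needs the cuspidality of the kernel in its first variable
                          (`KerCuspC74`), the kernel form of `T3.EKCuspC`; then Fubini.

## Inputs

* `T3.InLocCompC K`, `T3.InLatticeC K` (only cocompactness is used), `T3.InFundDomC K`: outputs
  of T1, in the form in which T3 takes them;
* `LocFinC74 K`   : for a ray generator `r`, a compact set of `GL₂(𝔸_K)` contains finitely many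
                    `γ rᵐ` (T1: `GL₂(K)` is discrete and closed, `‖det(γ rᵐ)‖_𝔸 = 2ᵐ`);
* `RowBoundC74 𝔫 τ` : uniform row bound for Eisenstein-killing test functions (by-product of the
                    proof of T5.02; follows from a uniform bound of the kernel,
                    `rowBound_of_bounded74`);
* `KerCuspC74 𝔫 τ` : for an Eisenstein-killing test function and `z ∈ F` the function
                    `x ↦ K_φ(x, z)` has vanishing constant term.
-/

set_option autoImplicit false

open IsDedekindDomain NumberField MeasureTheory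
open scoped MatrixGroups ComplexConjugate Pointwise ENNReal

noncomputable section

namespace Fermat.Agent.LT.T5.H74

open Fermat.Agent.LT.H556.A0 Fermat.Agent.LT.T5

attribute [local instance] Fermat.Agent.LT.T5.instMeasurableSpaceG

variable {K : Type} [Field K] [NumberField K]

/-- **INPUT.**  Local finiteness of `GL₂(K) ⟨r⟩` for every generator `r` of the discrete ray. -/
def LocFinC74 (K : Type) [Field K] [NumberField K] : Prop :=
  ∀ r : G K, IsRayGen r → LocFin74 r

/-- **INPUT.**  Uniform row bound of the kernel of an Eisenstein-killing test function. -/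
def RowBoundC74 (𝔫 : Ideal (𝓞 K)) (τ : G K → ℂ) : Prop :=
  ∀ (μ : Measure (G K)) (F : Set (G K)) (r : G K), IsFrame μ F → IsRayGen r →
    ∀ φ : G K → ℂ, IsTestFn 𝔫 τ φ → IsEK μ φ → IsEK μ (adjointFn φ) → RowBound74 μ F r φ

/-- **INPUT.**  The kernel of an Eisenstein-killing test function is cuspidal in its first
variable. -/
def KerCuspC74 (𝔫 : Ideal (𝓞 K)) (τ : G K → ℂ) : Prop :=
  ∀ (μ : Measure (G K)) (F : Set (G K)) (r : G K), IsFrame μ F → IsRayGen r →
    ∀ φ : G K → ℂ, IsTestFn 𝔫 τ φ → IsEK μ φ → IsEK μ (adjointFn φ) →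
      ∀ z ∈ F, IsCuspidalFn (fun x => ker0 r φ x z)

/-- **T5.04 `LeafRange`, conditional delivery.** -/
theorem leafRange_of74 (𝔫 : Ideal (𝓞 K)) (τ : G K → ℂ) (hloc : T3.InLocCompC K)
    (hlat : T3.InLatticeC K) (hfd : T3.InFundDomC K) (hfin : LocFinC74 K)
    (hrow : RowBoundC74 𝔫 τ) (hcusp : KerCuspC74 𝔫 τ) : LeafRange 𝔫 τ := by
  obtain ⟨⟨-, -, hscA⟩, hlcG, -, hscG⟩ := hloc
  intro μ F r hF hr φ hφ hek hek' f hf
  have hcen : ∀ g : G K, r * g = g * r := isRayGen_central74 r hr
  have : BorelSpace (G K) := borelSpaceG74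
  exact
    { cont := continuous_range74 μ F hF.finite r hcen (hfin r hr) φ hφ.cont hφ.supp f hf
      bdd := bounded_range74 μ F r φ (hrow μ F r hF hr φ hφ hek hek')
        (fun x =>
          (continuous_ker0_right74 r hcen (hfin r hr) φ hφ.cont hφ.supp x).aestronglyMeasurable)
        f hf
      aut := isAutomorphicFn_range74 𝔫 τ μ F r hr φ hφ f
      cuspidal := cuspidal_range74 hlat.2.2 hfd μ F hF.meas hF.finite r hcen (hfin r hr) φ
        hφ.cont hφ.supp (hcusp μ F r hF hr φ hφ hek hek') f hf }

end Fermat.Agent.LT.T5.H74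

end
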