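import Fermat.Agent.LT.T5.H74.RangeCusp

/-!
# Row LT, tower T5, sub-leaf T5.04b `KerCuspC74` (helper74): the periodisation of a bump

OFF-MAIN.  For `β ∈ C_c(GL₂(𝔸_K))` the periodisation over `GL₂(K) ⟨r⟩`,
`ψ_β(y) = ∑_{γ, m} β(γ y rᵐ) = K_β(1, y)`, is continuous, bounded, left invariant under `GL₂(K)`
and right invariant under `r`.
-/

set_option autoImplicit false

open IsDedekindDomain NumberField MeasureTheory
open scoped MatrixGroups ComplexConjugate Pointwise ENNReal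

noncomputable section

namespace Fermat.Agent.LT.T5.H74

open Fermat.Agent.LT.H556.A0 Fermat.Agent.LT.T5

attribute [local instance] Fermat.Agent.LT.T5.instMeasurableSpaceG

variable {K : Type} [Field K] [NumberField K]

/-- `φ♭(g r) = φ♭(g)`. -/
theorem flat_mul_ray74 (r : G K) (φ : G K → ℂ) (g : G K) : flat r φ (g * r) = flat r φ g := by
  unfold flat
  have h : ∀ m : ℤ, φ (g * r * r ^ m)
      = (fun m' : ℤ => φ (g * r ^ m')) (Equiv.addRight (1 : ℤ) m) := by
    intro m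
    simp only [Equiv.coe_addRight]
    rw [mul_assoc, add_comm m 1, zpow_add, zpow_one]
  rw [tsum_congr h]
  exact (Equiv.addRight (1 : ℤ)).tsum_eq (fun m' : ℤ => φ (g * r ^ m'))

/-- `K_φ(x, z r) = K_φ(x, z)`. -/
theorem ker0_mul_ray_right74 (r : G K) (φ : G K → ℂ) (x z : G K) :
    ker0 r φ x (z * r) = ker0 r φ x z := by
  unfold ker0
  refine tsum_congr fun γ => ?_
  rw [← mul_assoc, flat_mul_ray74]

/-- `K_φ(x, γ₀ z) = K_φ(x, z)` for `γ₀ ∈ GL₂(K)`. -/
theorem ker0_ratG_mul_right74 (r : G K) (φ : G K → ℂ) (γ₀ : GL (Fin 2) K) (x z : G K) :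
    ker0 r φ x (ratG γ₀ * z) = ker0 r φ x z := by
  unfold ker0
  have h : ∀ γ : GL (Fin 2) K,
      flat r φ (x⁻¹ * ratG γ * (ratG γ₀ * z))
        = (fun γ' : GL (Fin 2) K => flat r φ (x⁻¹ * ratG γ' * z)) (Equiv.mulRight γ₀ γ) := by
    intro γ
    simp only [Equiv.coe_mulRight, map_mul, mul_assoc]
  rw [tsum_congr h]
  exact (Equiv.mulRight γ₀).tsum_eq (fun γ' : GL (Fin 2) K => flat r φ (x⁻¹ * ratG γ' * z))

/-- The periodisation of `β` over `GL₂(K) ⟨r⟩`: `ψ_β(y) = ∑_{γ, m} β(γ y rᵐ)`. -/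
def per74 (r : G K) (β : G K → ℂ) : G K → ℂ := fun y => ker0 r β 1 y

theorem per_ratG_mul74 (r : G K) (β : G K → ℂ) (γ : GL (Fin 2) K) (y : G K) :
    per74 r β (ratG γ * y) = per74 r β y :=
  ker0_ratG_mul_right74 r β γ 1 y

theorem per_mul_ray74 (r : G K) (β : G K → ℂ) (y : G K) :
    per74 r β (y * r) = per74 r β y :=
  ker0_mul_ray_right74 r β 1 y

theorem continuous_per74 [LocallyCompactSpace (G K)] (r : G K)
    (hr : ∀ g : G K, r * g = g * r) (hfin : LocFin74 r) (β : G K → ℂ) (hc : Continuous β)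
    (hβ : HasCompactSupport β) : Continuous (per74 r β) :=
  continuous_ker0_right74 r hr hfin β hc hβ 1

theorem bounded_per74 (r : G K) (hr : ∀ g : G K, r * g = g * r) (hfin : LocFin74 r)
    (β : G K → ℂ) (hc : Continuous β) (hβ : HasCompactSupport β) :
    ∃ C : ℝ, ∀ y : G K, ‖per74 r β y‖ ≤ C := by
  obtain ⟨M, -, hM⟩ := norm_ker0_le74 r hr hfin β hc hβ {1} isCompact_singleton
  exact ⟨M, fun y => hM 1 rfl y⟩

/-- The periodisation is a bounded continuous automorphic function (`T3.IsAutFn`). -/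
theorem isAutFn_per74 [LocallyCompactSpace (G K)] (r : G K)
    (hr : ∀ g : G K, r * g = g * r) (hfin : LocFin74 r) (β : G K → ℂ) (hc : Continuous β)
    (hβ : HasCompactSupport β) : T3.IsAutFn K (per74 r β) where
  cont := continuous_per74 r hr hfin β hc hβ
  bdd := bounded_per74 r hr hfin β hc hβ
  left_inv := fun γ g => per_ratG_mul74 r β γ g

end Fermat.Agent.LT.T5.H74

end
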