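import Fermat.Agent.LT.T5.H74.KerPer

/-!
# Row LT, tower T5, sub-leaf T5.04b `KerCuspC74` (helper74): unfolding over `GL₂(𝔸_K)`

OFF-MAIN.  For `φ, β ∈ C_c(GL₂(𝔸_K))` and the periodisation `ψ_β` of `β` over `GL₂(K) ⟨r⟩`:
`R(φ)ψ_β(x) = ∫_G K_φ(x, y) β(y) dy`.  Both sides are finite sums of integrals; the terms
correspond under `(γ, m) ↦ (γ⁻¹, -m)` by the invariance of the measure.
-/

set_option autoImplicit false

open IsDedekindDomain NumberField MeasureTheory
open scoped MatrixGroups ComplexConjugate Pointwise ENNReal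

noncomputable section

namespace Fermat.Agent.LT.T5.H74

open Fermat.Agent.LT.H556.A0 Fermat.Agent.LT.T5

attribute [local instance] Fermat.Agent.LT.T5.instMeasurableSpaceG

variable {K : Type} [Field K] [NumberField K]

/-- The Haar measure of a frame is right invariant. -/
theorem isMulRightInvariant_of_frame74 (μ : Measure (G K)) (F : Set (G K)) (hF : IsFrame μ F) :
    μ.IsMulRightInvariant := by
  have : BorelSpace (G K) := borelSpaceG74
  refine ⟨fun g => Measure.ext fun A hA => ?_⟩
  rw [Measure.map_apply (measurable_mul_const g) hA]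
  exact hF.right_inv g A hA

/-- The terms of the two sums correspond: substitution `y = γ x h rᵐ`. -/
theorem integral_term_subst74 (μ : Measure (G K)) [μ.IsMulLeftInvariant]
    [μ.IsMulRightInvariant] (r : G K) (φ β : G K → ℂ) (x : G K) (p : GL (Fin 2) K × ℤ) :
    ∫ h, φ h * term74 r β 1 (x * h) p ∂μ
      = ∫ y, term74 r φ x y (p.1⁻¹, -p.2) * β y ∂μ := by
  have : BorelSpace (G K) := borelSpaceG74
  set Φ : G K → ℂ := fun y => term74 r φ x y (p.1⁻¹, -p.2) * β y with hΦ
  have h1 : ∀ h : G K, φ h * term74 r β 1 (x * h) p = Φ (ratG p.1 * x * h * r ^ p.2) := by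
    intro h
    simp only [hΦ, term74, inv_one, one_mul, map_inv, zpow_neg]
    have e : x⁻¹ * (ratG p.1)⁻¹ * (ratG p.1 * x * h * r ^ p.2) * (r ^ p.2)⁻¹ = h := by
      simp only [mul_assoc, inv_mul_cancel_left, mul_inv_cancel, mul_one]
    rw [e]
    simp only [mul_assoc]
  rw [integral_congr_ae (Filter.Eventually.of_forall h1)]
  have h2 : ∫ h, Φ (ratG p.1 * x * h * r ^ p.2) ∂μ
      = ∫ h, (fun u => Φ (ratG p.1 * x * u)) (h * r ^ p.2) ∂μ := by
    refine integral_congr_ae (Filter.Eventually.of_forall fun h => ?_)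
    simp only [mul_assoc]
  rw [h2, integral_mul_right_eq_self (fun u => Φ (ratG p.1 * x * u)) (r ^ p.2),
    integral_mul_left_eq_self Φ (ratG p.1 * x)]

/-- `R(φ)ψ_β(x)` as a sum of integrals. -/
theorem Rconv_per_eq_tsum74 [LocallyCompactSpace (G K)]
    (μ : Measure (G K)) [IsFiniteMeasureOnCompacts μ] (r : G K)
    (hr : ∀ g : G K, r * g = g * r) (hfin : LocFin74 r) (φ β : G K → ℂ)
    (hφ : Continuous φ) (hφc : HasCompactSupport φ) (hβ : Continuous β)
    (hβc : HasCompactSupport β) (x : G K) :
    Rconv μ φ (per74 r β) x = ∑' p : GL (Fin 2) K × ℤ, ∫ h, φ h * term74 r β 1 (x * h) p ∂μ := by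
  have : BorelSpace (G K) := borelSpaceG74
  have hU' : IsCompact ((fun h : G K => x * h) '' tsupport φ) :=
    hφc.image (continuous_const.mul continuous_id)
  set I := idx74 r hfin β hβc {1} ((fun h : G K => x * h) '' tsupport φ) isCompact_singleton hU'
    with hI
  -- pointwise: the integrand is a finite sum
  have hpt : ∀ h : G K, φ h * per74 r β (x * h) = ∑ p ∈ I, φ h * term74 r β 1 (x * h) p := by
    intro h
    by_cases hh : h ∈ tsupport φ
    · unfold per74
      rw [ker0_eq_sum74 r hr hfin β hβc {1} _ isCompact_singleton hU' rfl ⟨h, hh, rfl⟩,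
        Finset.mul_sum]
    · rw [image_eq_zero_of_notMem_tsupport hh]
      simp only [zero_mul, Finset.sum_const_zero]
  have hint : ∀ p ∈ I, Integrable (fun h : G K => φ h * term74 r β 1 (x * h) p) μ := by
    intro p _
    refine Continuous.integrable_of_hasCompactSupport ?_ ?_
    · refine hφ.mul ?_
      have h2 : Continuous fun h : G K => ((1, x * h) : G K × G K) :=
        Continuous.prodMk continuous_const (continuous_const.mul continuous_id)
      show Continuous ((fun q : G K × G K => term74 r β q.1 q.2 p) ∘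
        fun h : G K => ((1, x * h) : G K × G K))
      exact (continuous_term74 r β hβ p).comp h2
    · exact hφc.mul_right
  have hzero : ∀ p ∉ I, ∫ h, φ h * term74 r β 1 (x * h) p ∂μ = 0 := by
    intro p hp
    have h0 : ∀ h : G K, φ h * term74 r β 1 (x * h) p = 0 := by
      intro h
      by_cases hh : h ∈ tsupport φ
      · rw [term_eq_zero_of_not_mem74 r hr hfin β hβc {1} _ isCompact_singleton hU' rfl
          ⟨h, hh, rfl⟩ hp, mul_zero]
      · rw [image_eq_zero_of_notMem_tsupport hh, zero_mul]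
    rw [integral_congr_ae (Filter.Eventually.of_forall h0)]
    exact integral_zero _ _
  unfold Rconv
  rw [integral_congr_ae (Filter.Eventually.of_forall hpt), integral_finsetSum I hint]
  exact (tsum_eq_sum hzero).symm

/-- `∫_G K_φ(x, y) β(y) dy` as a sum of integrals. -/
theorem integral_ker0_mul_eq_tsum74 [LocallyCompactSpace (G K)]
    (μ : Measure (G K)) [IsFiniteMeasureOnCompacts μ] (r : G K)
    (hr : ∀ g : G K, r * g = g * r) (hfin : LocFin74 r) (φ β : G K → ℂ)
    (hφ : Continuous φ) (hφc : HasCompactSupport φ) (hβ : Continuous β)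
    (hβc : HasCompactSupport β) (x : G K) :
    ∫ y, ker0 r φ x y * β y ∂μ
      = ∑' p : GL (Fin 2) K × ℤ, ∫ y, term74 r φ x y p * β y ∂μ := by
  have : BorelSpace (G K) := borelSpaceG74
  set I := idx74 r hfin φ hφc {x} (tsupport β) isCompact_singleton hβc with hI
  have hpt : ∀ y : G K, ker0 r φ x y * β y = ∑ p ∈ I, term74 r φ x y p * β y := by
    intro y
    by_cases hy : y ∈ tsupport β
    · rw [ker0_eq_sum74 r hr hfin φ hφc {x} _ isCompact_singleton hβc rfl hy, Finset.sum_mul]
    · rw [image_eq_zero_of_notMem_tsupport hy]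
      simp only [mul_zero, Finset.sum_const_zero]
  have hint : ∀ p ∈ I, Integrable (fun y : G K => term74 r φ x y p * β y) μ := by
    intro p _
    refine Continuous.integrable_of_hasCompactSupport ?_ ?_
    · refine Continuous.mul ?_ hβ
      have h2 : Continuous fun y : G K => ((x, y) : G K × G K) :=
        Continuous.prodMk continuous_const continuous_id
      show Continuous ((fun q : G K × G K => term74 r φ q.1 q.2 p) ∘
        fun y : G K => ((x, y) : G K × G K))
      exact (continuous_term74 r φ hφ p).comp h2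
    · exact hβc.mul_left
  have hzero : ∀ p ∉ I, ∫ y, term74 r φ x y p * β y ∂μ = 0 := by
    intro p hp
    have h0 : ∀ y : G K, term74 r φ x y p * β y = 0 := by
      intro y
      by_cases hy : y ∈ tsupport β
      · rw [term_eq_zero_of_not_mem74 r hr hfin φ hφc {x} _ isCompact_singleton hβc rfl hy hp,
          zero_mul]
      · rw [image_eq_zero_of_notMem_tsupport hy, mul_zero]
    rw [integral_congr_ae (Filter.Eventually.of_forall h0)]
    exact integral_zero _ _
  rw [integral_congr_ae (Filter.Eventually.of_forall hpt), integral_finsetSum I hint]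
  exact (tsum_eq_sum hzero).symm

/-- **Unfolding.**  `R(φ)ψ_β(x) = ∫_G K_φ(x, y) β(y) dy`. -/
theorem Rconv_per74 [LocallyCompactSpace (G K)]
    (μ : Measure (G K)) [IsFiniteMeasureOnCompacts μ] [μ.IsMulLeftInvariant]
    [μ.IsMulRightInvariant] (r : G K)
    (hr : ∀ g : G K, r * g = g * r) (hfin : LocFin74 r) (φ β : G K → ℂ)
    (hφ : Continuous φ) (hφc : HasCompactSupport φ) (hβ : Continuous β)
    (hβc : HasCompactSupport β) (x : G K) :
    Rconv μ φ (per74 r β) x = ∫ y, ker0 r φ x y * β y ∂μ := by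
  rw [Rconv_per_eq_tsum74 μ r hr hfin φ β hφ hφc hβ hβc x,
    integral_ker0_mul_eq_tsum74 μ r hr hfin φ β hφ hφc hβ hβc x]
  have h : ∀ p : GL (Fin 2) K × ℤ, ∫ h, φ h * term74 r β 1 (x * h) p ∂μ
      = (fun q : GL (Fin 2) K × ℤ => ∫ y, term74 r φ x y q * β y ∂μ)
        (((Equiv.inv (GL (Fin 2) K)).prodCongr (Equiv.neg ℤ)) p) := by
    intro p
    rw [integral_term_subst74 μ r φ β x p]
    rfl
  rw [tsum_congr h]
  exact ((Equiv.inv (GL (Fin 2) K)).prodCongr (Equiv.neg ℤ)).tsum_eq
    (fun q : GL (Fin 2) K × ℤ => ∫ y, term74 r φ x y q * β y ∂μ)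

end Fermat.Agent.LT.T5.H74

end
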