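import Fermat.Agent.LT.T5.Spec

/-!
# Row LT, tower T5, leaf T5.04 `LeafRange` (helper74): the AUTOMORPHY part

OFF-MAIN (Spec v4, `K_∞`-type `τ`).  The function `h x = ∫_F K_φ(x, z) f(z) dz` is left
invariant under `GL₂(K)`, right invariant under `U(𝔫)` and under the generator `r` of the
discrete ray, and of type `τ` under the maximal compact subgroups at infinity.  Pure re-indexing of the (unconditional) sums `∑'`: no summability, no
integrability and no measurability is used.
-/

set_option autoImplicit false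

open IsDedekindDomain NumberField MeasureTheory
open scoped MatrixGroups ComplexConjugate

noncomputable section

namespace Fermat.Agent.LT.T5.H74

open Fermat.Agent.LT.H556.A0 Fermat.Agent.LT.T5

attribute [local instance] Fermat.Agent.LT.T5.instMeasurableSpaceG

variable {K : Type} [Field K] [NumberField K]

/-! ## The kernel: re-indexing -/

/-- `K_φ(γ₀ x, z) = K_φ(x, z)` for `γ₀ ∈ GL₂(K)`. -/
theorem ker0_ratG_mul_left74 (r : G K) (φ : G K → ℂ) (γ₀ : GL (Fin 2) K) (x z : G K) :
    ker0 r φ (ratG γ₀ * x) z = ker0 r φ x z := by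
  unfold ker0
  have h : ∀ γ : GL (Fin 2) K,
      flat r φ ((ratG γ₀ * x)⁻¹ * ratG γ * z)
        = (fun γ' : GL (Fin 2) K => flat r φ (x⁻¹ * ratG γ' * z)) (Equiv.mulLeft γ₀⁻¹ γ) := by
    intro γ
    simp only [Equiv.coe_mulLeft, mul_inv_rev, map_mul, map_inv, mul_assoc]
  rw [tsum_congr h]
  exact (Equiv.mulLeft γ₀⁻¹).tsum_eq (fun γ' : GL (Fin 2) K => flat r φ (x⁻¹ * ratG γ' * z))

/-- `K_φ(x u, z) = K_φ(x, z)` if `φ` is left invariant under `u⁻¹`. -/
theorem ker0_mul_right_of_left_inv74 (r : G K) (φ : G K → ℂ) (u : G K)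
    (hu : ∀ g : G K, φ (u⁻¹ * g) = φ g) (x z : G K) :
    ker0 r φ (x * u) z = ker0 r φ x z := by
  unfold ker0 flat
  refine tsum_congr fun γ => tsum_congr fun m => ?_
  have : (x * u)⁻¹ * ratG γ * z * r ^ m = u⁻¹ * (x⁻¹ * ratG γ * z * r ^ m) := by
    simp only [mul_inv_rev, mul_assoc]
  rw [this, hu]

/-- `φ♭(c g) = φ♭(g c)`-type re-indexing: for a CENTRAL `r`, `φ♭(r⁻¹ g) = φ♭(g)`. -/
theorem flat_inv_mul_of_central74 (r : G K) (hr : ∀ g : G K, r * g = g * r) (φ : G K → ℂ)
    (g : G K) : flat r φ (r⁻¹ * g) = flat r φ g := by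
  unfold flat
  have hc : ∀ g : G K, r⁻¹ * g = g * r⁻¹ := by
    intro g
    have := hr (r⁻¹ * g * r⁻¹)
    calc r⁻¹ * g = r⁻¹ * g * r⁻¹ * r := by simp [mul_assoc]
      _ = r * (r⁻¹ * g * r⁻¹) := (hr _).symm
      _ = g * r⁻¹ := by simp [mul_assoc]
  have h : ∀ m : ℤ, φ (r⁻¹ * g * r ^ m)
      = (fun m' : ℤ => φ (g * r ^ m')) (Equiv.addRight (-1 : ℤ) m) := by
    intro m
    simp only [Equiv.coe_addRight]
    congr 1
    rw [hc g, mul_assoc, zpow_add, zpow_neg_one]
    congr 1
    exact (Commute.zpow_right (Commute.refl r).inv_left m).eq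
  rw [tsum_congr h]
  exact (Equiv.addRight (-1 : ℤ)).tsum_eq (fun m' : ℤ => φ (g * r ^ m'))

/-- `K_φ(x r, z) = K_φ(x, z)` for a central `r`. -/
theorem ker0_mul_ray74 (r : G K) (hr : ∀ g : G K, r * g = g * r) (φ : G K → ℂ) (x z : G K) :
    ker0 r φ (x * r) z = ker0 r φ x z := by
  unfold ker0
  refine tsum_congr fun γ => ?_
  have : (x * r)⁻¹ * ratG γ * z = r⁻¹ * (x⁻¹ * ratG γ * z) := by
    simp only [mul_inv_rev, mul_assoc]
  rw [this, flat_inv_mul_of_central74 r hr]

/-! ## Components of inverses -/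

/-- A ring homomorphism which maps the matrix of `g` to `1` maps the matrix of `g⁻¹` to `1`. -/
theorem map_inv_eq_one74 {S : Type*} [CommRing S] (ρ : Adl K →+* S) (g : G K)
    (h : (g : Matrix (Fin 2) (Fin 2) (Adl K)).map ρ = 1) :
    ((g⁻¹ : G K) : Matrix (Fin 2) (Fin 2) (Adl K)).map ρ = 1 := by
  have h1 : ((g⁻¹ : G K) : Matrix (Fin 2) (Fin 2) (Adl K))
      * (g : Matrix (Fin 2) (Fin 2) (Adl K)) = 1 := by
    rw [← Units.val_mul, inv_mul_cancel, Units.val_one]
  have h2 := congrArg (fun M : Matrix (Fin 2) (Fin 2) (Adl K) => M.map ρ) h1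
  simp only [Matrix.map_mul, h, mul_one] at h2
  rw [h2]
  ext i j
  simp [Matrix.map_apply, Matrix.one_apply]

/-- The component at the infinite place `w`, in the completion. -/
def evInf74 (w : InfinitePlace K) : Adl K →+* w.Completion :=
  (Pi.evalRingHom (fun v : InfinitePlace K => v.Completion) w).comp
    (RingHom.fst (InfiniteAdeleRing K) (FiniteAdeleRing (𝓞 K) K))

theorem trivAtInf_iff74 (w : InfinitePlace K) (g : G K) :
    TrivAtInf w g ↔ (g : Matrix (Fin 2) (Fin 2) (Adl K)).map (evInf74 w) = 1 := by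
  constructor
  · intro h
    exact Matrix.ext fun i j => h i j
  · intro h i j
    exact congrFun (congrFun h i) j

theorem trivAtFin_iff74 (v : HeightOneSpectrum (𝓞 K)) (g : G K) :
    TrivAtFin v g ↔ (g : Matrix (Fin 2) (Fin 2) (Adl K)).map (finHom v) = 1 := Iff.rfl

theorem trivAtInf_inv74 (w : InfinitePlace K) (g : G K) (h : TrivAtInf w g) :
    TrivAtInf w g⁻¹ :=
  (trivAtInf_iff74 w g⁻¹).2 (map_inv_eq_one74 _ g ((trivAtInf_iff74 w g).1 h))

theorem trivAtFin_inv74 (v : HeightOneSpectrum (𝓞 K)) (g : G K) (h : TrivAtFin v g) :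
    TrivAtFin v g⁻¹ :=
  (trivAtFin_iff74 v g⁻¹).2 (map_inv_eq_one74 _ g ((trivAtFin_iff74 v g).1 h))

/-- The level group is stable under inversion. -/
theorem inLevelGroup_inv74 (𝔫 : Ideal (𝓞 K)) (u : G K) (h : InLevelGroup 𝔫 u) :
    InLevelGroup 𝔫 u⁻¹ := by
  refine ⟨fun w => trivAtInf_inv74 w u (h.1 w), fun v i j => ?_⟩
  rw [inv_inv]
  exact ⟨(h.2 v i j).2, (h.2 v i j).1⟩

/-- The maximal compact subgroups at infinity are stable under inversion. -/
theorem isArchCompact_inv74 (w : InfinitePlace K) (k : G K) (h : IsArchCompact w k) :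
    IsArchCompact w k⁻¹ := by
  obtain ⟨⟨h1, h2⟩, h3, h4⟩ := h
  have hA : infComp w k⁻¹ * infComp w k = 1 := by
    rw [infComp_eq_map, infComp_eq_map, ← Matrix.map_mul, ← Units.val_mul, inv_mul_cancel,
      Units.val_one]
    ext i j
    simp [Matrix.map_apply, Matrix.one_apply]
  have hB : infComp w k⁻¹ = (infComp w k).conjTranspose := by
    calc infComp w k⁻¹ = infComp w k⁻¹ * (infComp w k * (infComp w k).conjTranspose) := by
          rw [h3, mul_one]
      _ = (infComp w k).conjTranspose := by rw [← mul_assoc, hA, one_mul]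
  refine ⟨⟨fun w' hw' => trivAtInf_inv74 w' k (h1 w' hw'), fun v => trivAtFin_inv74 v k (h2 v)⟩,
    ?_, fun hw => ?_⟩
  · rw [hB, Matrix.conjTranspose_conjTranspose]
    exact mul_eq_one_comm.1 h3
  · have hd := congrArg Matrix.det hA
    rw [Matrix.det_mul, h4 hw, mul_one, Matrix.det_one] at hd
    exact hd

/-! ## The generator of the ray is central -/

/-- Two adeles with the same components are equal. -/
theorem adele_ext74 {a b : Adl K} (h1 : ∀ w : InfinitePlace K, a.1 w = b.1 w)
    (h2 : ∀ v : HeightOneSpectrum (𝓞 K), a.2 v = b.2 v) : a = b := by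
  apply Prod.ext
  · funext w
    exact h1 w
  · apply RestrictedProduct.ext
    intro v
    exact h2 v

theorem fst_zero74 (w : InfinitePlace K) : ((0 : Adl K).1 w) = 0 := rfl

theorem snd_zero74 (v : HeightOneSpectrum (𝓞 K)) : ((0 : Adl K).2 v) = 0 := rfl

/-- The generator of the discrete ray is a scalar matrix, hence central. -/
theorem isRayGen_central74 (r : G K) (hr : IsRayGen r) : ∀ g : G K, r * g = g * r := by
  obtain ⟨hfin, t, -, -, hinf⟩ := hr
  have hfin' : ∀ (v : HeightOneSpectrum (𝓞 K)) (i j : Fin 2),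
      ((r : Matrix (Fin 2) (Fin 2) (Adl K)) i j).2 v
        = (1 : Matrix (Fin 2) (Fin 2) (v.adicCompletion K)) i j :=
    fun v i j => congrFun (congrFun (hfin v) i) j
  have hinf' : ∀ (w : InfinitePlace K) (i j : Fin 2),
      InfinitePlace.Completion.extensionEmbedding w
          (((r : Matrix (Fin 2) (Fin 2) (Adl K)) i j).1 w)
        = (Matrix.diagonal (fun _ : Fin 2 => (t : ℂ))) i j :=
    fun w i j => congrFun (congrFun (hinf w) i) j
  have hinj : ∀ w : InfinitePlace K,
      Function.Injective (InfinitePlace.Completion.extensionEmbedding w) :=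
    fun w => (InfinitePlace.Completion.extensionEmbedding w).injective
  have h01 : (r : Matrix (Fin 2) (Fin 2) (Adl K)) 0 1 = 0 := by
    apply adele_ext74
    · intro w
      apply hinj w
      rw [hinf' w 0 1, fst_zero74, map_zero]
      simp
    · intro v
      rw [hfin' v 0 1, snd_zero74]
      simp
  have h10 : (r : Matrix (Fin 2) (Fin 2) (Adl K)) 1 0 = 0 := by
    apply adele_ext74
    · intro w
      apply hinj w
      rw [hinf' w 1 0, fst_zero74, map_zero]
      simp
    · intro v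
      rw [hfin' v 1 0, snd_zero74]
      simp
  have h00 : (r : Matrix (Fin 2) (Fin 2) (Adl K)) 0 0
      = (r : Matrix (Fin 2) (Fin 2) (Adl K)) 1 1 := by
    apply adele_ext74
    · intro w
      apply hinj w
      rw [hinf' w 0 0, hinf' w 1 1]
      simp
    · intro v
      rw [hfin' v 0 0, hfin' v 1 1]
      simp
  intro g
  apply Units.ext
  rw [Units.val_mul, Units.val_mul]
  ext i j
  fin_cases i <;> fin_cases j <;>
    simp [Matrix.mul_apply, Fin.sum_univ_two, h01, h10, h00, mul_comm]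

/-! ## The `K_∞`-type -/

/-- `K_φ(x u, z) = c K_φ(x, z)` if `φ(u⁻¹ g) = c φ(g)`. -/
theorem ker0_mul_right_of_left_smul74 (r : G K) (φ : G K → ℂ) (u : G K) (c : ℂ)
    (hu : ∀ g : G K, φ (u⁻¹ * g) = c * φ g) (x z : G K) :
    ker0 r φ (x * u) z = c * ker0 r φ x z := by
  unfold ker0 flat
  rw [← tsum_mul_left]
  refine tsum_congr fun γ => ?_
  rw [← tsum_mul_left]
  refine tsum_congr fun m => ?_
  have : (x * u)⁻¹ * ratG γ * z * r ^ m = u⁻¹ * (x⁻¹ * ratG γ * z * r ^ m) := by
    simp only [mul_inv_rev, mul_assoc]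
  rw [this, hu]

theorem infComp_one74 (w : InfinitePlace K) : infComp w (1 : G K) = 1 := by
  rw [infComp_eq_map, Units.val_one, Matrix.map_one _ (map_zero _) (map_one _)]

theorem trivAtInf_one74 (w : InfinitePlace K) : TrivAtInf w (1 : G K) := by
  rw [trivAtInf_iff74, Units.val_one, Matrix.map_one _ (map_zero _) (map_one _)]

theorem trivAtFin_one74 (v : HeightOneSpectrum (𝓞 K)) : TrivAtFin v (1 : G K) := by
  rw [trivAtFin_iff74, Units.val_one, Matrix.map_one _ (map_zero _) (map_one _)]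

/-- The identity lies in every maximal compact subgroup at infinity. -/
theorem isArchCompact_one74 (w : InfinitePlace K) : IsArchCompact w (1 : G K) := by
  refine ⟨⟨fun w' _ => trivAtInf_one74 w', fun v => trivAtFin_one74 v⟩, ?_, fun _ => ?_⟩
  · rw [infComp_one74, Matrix.conjTranspose_one, mul_one]
  · rw [infComp_one74, Matrix.det_one]

/-- A `K_∞`-type is `1` at the identity. -/
theorem ktype_one74 (τ : G K → ℂ) (hτ : IsKType τ) (w : InfinitePlace K) : τ 1 = 1 := by
  have h1 : ‖τ 1‖ = 1 := hτ.norm_one w 1 (isArchCompact_one74 w)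
  have h2 : τ (1 * 1) = τ 1 * τ 1 :=
    hτ.mul w 1 1 (isArchCompact_one74 w) (isArchCompact_one74 w)
  rw [mul_one] at h2
  have h0 : τ 1 ≠ 0 := by
    intro h
    rw [h, norm_zero] at h1
    exact zero_ne_one h1
  exact (mul_right_cancel₀ h0 (by rw [one_mul]; exact h2)).symm

/-- `τ(k⁻¹)⁻¹ = τ(k)` on the maximal compact subgroups at infinity. -/
theorem ktype_inv74 (τ : G K → ℂ) (hτ : IsKType τ) (w : InfinitePlace K) (k : G K)
    (hk : IsArchCompact w k) : (τ k⁻¹)⁻¹ = τ k := by
  have h : τ (k * k⁻¹) = τ k * τ k⁻¹ := hτ.mul w k k⁻¹ hk (isArchCompact_inv74 w k hk)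
  rw [mul_inv_cancel, ktype_one74 τ hτ w] at h
  exact (eq_inv_of_mul_eq_one_left h.symm).symm

/-! ## The automorphy of the range -/

/-- **T5.04, automorphy part (unconditional).**  For a test function `φ` of type `τ` and ANY
`f`, the function `x ↦ ∫_F K_φ(x, z) f(z) dz` is automorphic of level `𝔫` and type `τ`, and
invariant under the ray. -/
theorem isAutomorphicFn_range74 (𝔫 : Ideal (𝓞 K)) (τ : G K → ℂ) (μ : Measure (G K))
    (F : Set (G K)) (r : G K) (hr : IsRayGen r) (φ : G K → ℂ) (hφ : IsTestFn 𝔫 τ φ)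
    (f : G K → ℂ) :
    IsAutomorphicFn 𝔫 τ r (fun x => ∫ z in F, ker0 r φ x z * f z ∂μ) where
  left_inv := fun γ g => by
    simp only [ker0_ratG_mul_left74]
  level_inv := fun u hu g => by
    have h := fun z => ker0_mul_right_of_left_inv74 r φ u
      (hφ.inv.level_left u⁻¹ (inLevelGroup_inv74 𝔫 u hu)) g z
    simp only [h]
  arch_compact := fun w k hk g => by
    have h := fun z => ker0_mul_right_of_left_smul74 r φ k (τ k)
      (fun g' => by
        rw [hφ.inv.arch_left w k⁻¹ (isArchCompact_inv74 w k hk) g',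
          ktype_inv74 τ hφ.ktype w k hk]) g z
    simp only [h, mul_assoc]
    exact integral_const_mul _ _
  ray := fun g => by
    have h := fun z => ker0_mul_ray74 r (isRayGen_central74 r hr) φ g z
    simp only [h]

end Fermat.Agent.LT.T5.H74

end
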