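import Fermat.Agent.LT.T5.H74.RangeCont

/-!
# Row LT, tower T5, leaf T5.04 `LeafRange` (helper74): BOUNDEDNESS of `x ↦ ∫_F K_φ(x,z) f(z) dz`

OFF-MAIN.  INPUT `RowBound74 μ F r φ`: the rows `K_φ(x, ·)` of the kernel are bounded in `L²(F)`
uniformly in `x` (this is what the proof of T5.02 gives for an Eisenstein-killing `φ`: on a
Siegel set the kernel is `O(height⁻ᴺ)`; it does NOT follow from the statement `LeafHS0` alone,
which only controls almost every row).  Cauchy–Schwarz then gives `‖h‖_∞ ≤ C ‖f‖_{L²(F)}`.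
-/

set_option autoImplicit false

open IsDedekindDomain NumberField MeasureTheory
open scoped MatrixGroups ComplexConjugate Pointwise ENNReal

noncomputable section

namespace Fermat.Agent.LT.T5.H74

open Fermat.Agent.LT.H556.A0 Fermat.Agent.LT.T5

attribute [local instance] Fermat.Agent.LT.T5.instMeasurableSpaceG

variable {K : Type} [Field K] [NumberField K]

/-- **INPUT (uniform row bound).**  `sup_x ‖K_φ(x, ·)‖_{L²(F)} < ∞`. -/
def RowBound74 (μ : Measure (G K)) (F : Set (G K)) (r : G K) (φ : G K → ℂ) : Prop :=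
  ∃ C : ℝ≥0∞, C < ⊤ ∧ ∀ x : G K, eLpNorm (fun z => ker0 r φ x z) 2 (μ.restrict F) ≤ C

/-- A uniformly bounded kernel satisfies the row bound (`μ(F) < ∞`). -/
theorem rowBound_of_bounded74 (μ : Measure (G K)) (F : Set (G K)) (hF : μ F < ⊤) (r : G K)
    (φ : G K → ℂ) (h : ∃ M : ℝ, ∀ x z : G K, ‖ker0 r φ x z‖ ≤ M) : RowBound74 μ F r φ := by
  obtain ⟨M, hM⟩ := h
  have : IsFiniteMeasure (μ.restrict F) := isFiniteMeasure_restrict74 μ F hF
  refine ⟨(μ.restrict F) Set.univ ^ (2 : ℝ≥0∞).toReal⁻¹ * ENNReal.ofReal M, ?_, fun x => ?_⟩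
  · refine ENNReal.mul_lt_top (ENNReal.rpow_lt_top_of_nonneg (by positivity) ?_)
      ENNReal.ofReal_lt_top
    exact (measure_lt_top _ _).ne
  · exact eLpNorm_le_of_ae_bound (Filter.Eventually.of_forall (fun z => hM x z))

/-- **Boundedness** of `x ↦ ∫_F K_φ(x, z) f(z) dz` for `f ∈ L²(F)`. -/
theorem bounded_range74 (μ : Measure (G K)) (F : Set (G K)) (r : G K) (φ : G K → ℂ)
    (hrow : RowBound74 μ F r φ)
    (hmeas : ∀ x : G K, AEStronglyMeasurable (fun z => ker0 r φ x z) (μ.restrict F))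
    (f : G K → ℂ) (hf : MemLp f 2 (μ.restrict F)) :
    ∃ C : ℝ, ∀ x : G K, ‖∫ z in F, ker0 r φ x z * f z ∂μ‖ ≤ C := by
  obtain ⟨C, hC, hrow⟩ := hrow
  have hf2 : eLpNorm f 2 (μ.restrict F) < ⊤ := hf.eLpNorm_lt_top
  have hfin : C * eLpNorm f 2 (μ.restrict F) < ⊤ := ENNReal.mul_lt_top hC hf2
  refine ⟨(C * eLpNorm f 2 (μ.restrict F)).toReal, fun x => ?_⟩
  have h1 : ‖∫ z in F, ker0 r φ x z * f z ∂μ‖ₑ ≤ C * eLpNorm f 2 (μ.restrict F) := by
    calc ‖∫ z in F, ker0 r φ x z * f z ∂μ‖ₑ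
        ≤ ∫⁻ z in F, ‖ker0 r φ x z * f z‖ₑ ∂μ := enorm_integral_le_lintegral_enorm _
      _ = eLpNorm ((fun z => ker0 r φ x z) • f) 1 (μ.restrict F) := by
          rw [eLpNorm_one_eq_lintegral_enorm]
          rfl
      _ ≤ eLpNorm (fun z => ker0 r φ x z) 2 (μ.restrict F) * eLpNorm f 2 (μ.restrict F) :=
          eLpNorm_smul_le_mul_eLpNorm hf.1 (hmeas x)
      _ ≤ C * eLpNorm f 2 (μ.restrict F) := by gcongr; exact hrow x
  rw [← toReal_enorm]
  exact ENNReal.toReal_mono hfin.ne h1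

end Fermat.Agent.LT.T5.H74

end
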