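import Fermat.Agent.LT.T5.H74.RangeFin

/-!
# Row LT, tower T5, leaf T5.04 `LeafRange` (helper74): CONTINUITY of `x ↦ ∫_F K_φ(x,z) f(z) dz`

OFF-MAIN.  Dominated convergence: for `x` in a compact neighbourhood `U` the kernel is bounded
uniformly in `z` (`norm_ker0_le74`), `f ∈ L²(F) ⊆ L¹(F)` because `μ(F) < ∞`, and the kernel is
continuous (`continuous_ker0_74`).
-/

set_option autoImplicit false

open IsDedekindDomain NumberField MeasureTheory
open scoped MatrixGroups ComplexConjugate Pointwise

noncomputable section

namespace Fermat.Agent.LT.T5.H74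

open Fermat.Agent.LT.H556.A0 Fermat.Agent.LT.T5

attribute [local instance] Fermat.Agent.LT.T5.instMeasurableSpaceG

variable {K : Type} [Field K] [NumberField K]

/-- The σ-algebra of T5 is the Borel σ-algebra. -/
theorem borelSpaceG74 : BorelSpace (G K) := ⟨rfl⟩

/-- The restriction of `μ` to a set of finite measure is a finite measure. -/
theorem isFiniteMeasure_restrict74 (μ : Measure (G K)) (F : Set (G K)) (hF : μ F < ⊤) :
    IsFiniteMeasure (μ.restrict F) :=
  ⟨by rw [Measure.restrict_apply_univ]; exact hF⟩

theorem continuous_ker0_left74 [LocallyCompactSpace (G K)] (r : G K)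
    (hr : ∀ g : G K, r * g = g * r) (hfin : LocFin74 r) (φ : G K → ℂ) (hc : Continuous φ)
    (hφ : HasCompactSupport φ) (z : G K) : Continuous fun x : G K => ker0 r φ x z := by
  have h := continuous_ker0_74 r hr hfin φ hc hφ
  have h2 : Continuous fun x : G K => ((x, z) : G K × G K) :=
    Continuous.prodMk continuous_id continuous_const
  show Continuous ((fun q : G K × G K => ker0 r φ q.1 q.2) ∘ fun x : G K => ((x, z) : G K × G K))
  exact Continuous.comp h h2

theorem continuous_ker0_right74 [LocallyCompactSpace (G K)] (r : G K)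
    (hr : ∀ g : G K, r * g = g * r) (hfin : LocFin74 r) (φ : G K → ℂ) (hc : Continuous φ)
    (hφ : HasCompactSupport φ) (x : G K) : Continuous fun z : G K => ker0 r φ x z := by
  have h := continuous_ker0_74 r hr hfin φ hc hφ
  have h2 : Continuous fun z : G K => ((x, z) : G K × G K) :=
    Continuous.prodMk continuous_const continuous_id
  show Continuous ((fun q : G K × G K => ker0 r φ q.1 q.2) ∘ fun z : G K => ((x, z) : G K × G K))
  exact Continuous.comp h h2

/-- The integrand `z ↦ K_φ(x, z) f(z)` is measurable. -/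
theorem aestronglyMeasurable_integrand74 [LocallyCompactSpace (G K)] (μ : Measure (G K))
    (F : Set (G K)) (r : G K) (hr : ∀ g : G K, r * g = g * r) (hfin : LocFin74 r)
    (φ : G K → ℂ) (hc : Continuous φ) (hφ : HasCompactSupport φ) (f : G K → ℂ)
    (hf : AEStronglyMeasurable f (μ.restrict F)) (x : G K) :
    AEStronglyMeasurable (fun z => ker0 r φ x z * f z) (μ.restrict F) := by
  have : BorelSpace (G K) := borelSpaceG74
  exact (continuous_ker0_right74 r hr hfin φ hc hφ x).aestronglyMeasurable.mul hf

/-- **Continuity** of `x ↦ ∫_F K_φ(x, z) f(z) dz`, `f ∈ L²(F)`, `μ(F) < ∞`. -/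
theorem continuous_range74 [LocallyCompactSpace (G K)] [FirstCountableTopology (G K)]
    (μ : Measure (G K)) (F : Set (G K)) (hF : μ F < ⊤) (r : G K)
    (hr : ∀ g : G K, r * g = g * r) (hfin : LocFin74 r) (φ : G K → ℂ) (hc : Continuous φ)
    (hφ : HasCompactSupport φ) (f : G K → ℂ) (hf : MemLp f 2 (μ.restrict F)) :
    Continuous fun x => ∫ z in F, ker0 r φ x z * f z ∂μ := by
  have : IsFiniteMeasure (μ.restrict F) := isFiniteMeasure_restrict74 μ F hF
  have hf1 : Integrable f (μ.restrict F) := hf.integrable one_le_two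
  rw [continuous_iff_continuousAt]
  intro x₀
  obtain ⟨U, hU, hxU⟩ := exists_compact_mem_nhds x₀
  obtain ⟨M, _, hM⟩ := norm_ker0_le74 r hr hfin φ hc hφ U hU
  refine continuousAt_of_dominated (bound := fun z => M * ‖f z‖) ?_ ?_ ?_ ?_
  · exact Filter.Eventually.of_forall
      (fun x => aestronglyMeasurable_integrand74 μ F r hr hfin φ hc hφ f hf.1 x)
  · filter_upwards [hxU] with x hx
    refine Filter.Eventually.of_forall (fun z => ?_)
    rw [norm_mul]
    exact mul_le_mul_of_nonneg_right (hM x hx z) (norm_nonneg _)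
  · exact hf1.norm.const_mul M
  · refine Filter.Eventually.of_forall (fun z => ?_)
    exact ((continuous_ker0_left74 r hr hfin φ hc hφ z).mul continuous_const).continuousAt

end Fermat.Agent.LT.T5.H74

end
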