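import Fermat.Agent.LT.T5.H74.RangeBdd
import Fermat.Agent.LT.T3.Spec

/-!
# Row LT, tower T5, leaf T5.04 `LeafRange` (helper74): CUSPIDALITY of `x ↦ ∫_F K_φ(x,z) f(z) dz`

OFF-MAIN.  INPUT: the kernel is cuspidal in its first variable, `∀ z ∈ F`,
`IsCuspidalFn (K_φ(·, z))` (for an Eisenstein-killing `φ` this is the kernel form of
`T3.EKCuspC`).  Fubini on `D × F` (`D` a fundamental domain of `K` in `𝔸_K`, of finite measure
by `T3.InFundDomC`; the kernel is bounded on `n(𝔸_K) g × GL₂(𝔸_K)` because it is left invariant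
under `n(K)` and `K \ 𝔸_K` is compact) exchanges the constant term with the integral over `F`.
-/

set_option autoImplicit false

open IsDedekindDomain NumberField MeasureTheory
open scoped MatrixGroups ComplexConjugate Pointwise ENNReal

noncomputable section

namespace Fermat.Agent.LT.T5.H74

open Fermat.Agent.LT.H556.A0 Fermat.Agent.LT.T5

attribute [local instance] Fermat.Agent.LT.T5.instMeasurableSpaceG

variable {K : Type} [Field K] [NumberField K]

/-- A number field is countable. -/
theorem countable_numberField74 (K : Type) [Field K] [NumberField K] : Countable K :=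
  (Module.finBasis ℚ K).equivFun.injective.countable

/-- The image of `K` in the adeles is countable. -/
theorem countable_range74 (K : Type) [Field K] [NumberField K] :
    Countable ((algebraMap K (Adl K)).toAddMonoidHom.range) := by
  have : Countable K := countable_numberField74 K
  exact Function.Surjective.countable
    (f := (algebraMap K (Adl K)).toAddMonoidHom.rangeRestrict)
    (AddMonoidHom.rangeRestrict_surjective _)

/-- The rational unipotent element `n(ξ)`, `ξ ∈ K`. -/
def unipRat74 (ξ : K) : GL (Fin 2) K :=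
  ⟨!![1, ξ; 0, 1], !![1, -ξ; 0, 1],
    by ext i j; fin_cases i <;> fin_cases j <;> simp [Matrix.mul_apply, Fin.sum_univ_two],
    by ext i j; fin_cases i <;> fin_cases j <;> simp [Matrix.mul_apply, Fin.sum_univ_two]⟩

theorem ratG_unipRat74 (ξ : K) :
    ratG (unipRat74 ξ) = T3.unip K (algebraMap K (Adl K) ξ) := by
  apply Units.ext
  ext i j
  rw [ratG, Matrix.GeneralLinearGroup.map_apply, T3.unip_coe]
  fin_cases i <;> fin_cases j <;> simp [unipRat74]

theorem unip_add74 (s t : Adl K) : T3.unip K (s + t) = T3.unip K s * T3.unip K t := by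
  apply Units.ext
  rw [Units.val_mul, T3.unip_coe, T3.unip_coe, T3.unip_coe]
  ext i j
  fin_cases i <;> fin_cases j <;> simp [Matrix.mul_apply, Fin.sum_univ_two, add_comm]

/-- Every `n` with the matrices `[[1, x], [0, 1]]` is `T3.unip`. -/
theorem eq_unip74 (n : Adl K → G K)
    (hn : ∀ x : Adl K, (n x : Matrix (Fin 2) (Fin 2) (Adl K)) = !![1, x; 0, 1]) :
    n = T3.unip K :=
  funext fun x => Units.ext (by rw [hn x, T3.unip_coe])

/-- `x ↦ n(x)` is continuous `𝔸_K → GL₂(𝔸_K)`. -/
theorem continuous_unip74 : Continuous (T3.unip K : Adl K → G K) := by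
  rw [Units.continuous_iff]
  constructor
  · apply continuous_matrix
    intro i j
    fin_cases i <;> fin_cases j
    · exact continuous_const
    · exact continuous_id
    · exact continuous_const
    · exact continuous_const
  · apply continuous_matrix
    intro i j
    fin_cases i <;> fin_cases j
    · exact continuous_const
    · exact continuous_neg
    · exact continuous_const
    · exact continuous_const

/-- The kernel is invariant under `n(ξ)`, `ξ ∈ K`, in the first variable. -/
theorem ker0_unip_sub74 (r : G K) (φ : G K → ℂ) (ξ : K) (t : Adl K) (g z : G K) :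
    ker0 r φ (T3.unip K (t - algebraMap K (Adl K) ξ) * g) z = ker0 r φ (T3.unip K t * g) z := by
  have h : T3.unip K t
      = ratG (unipRat74 ξ) * T3.unip K (t - algebraMap K (Adl K) ξ) := by
    rw [ratG_unipRat74, ← unip_add74, add_sub_cancel]
  rw [h, mul_assoc, ker0_ratG_mul_left74]

/-- **The kernel is bounded on `n(𝔸_K) g × GL₂(𝔸_K)`.** -/
theorem norm_ker0_unip_le74
    (hcoc : ∃ C : Set (Adl K), IsCompact C ∧ ∀ x : Adl K, ∃ ξ : K,
      x - algebraMap K (Adl K) ξ ∈ C)
    (r : G K) (hr : ∀ g : G K, r * g = g * r) (hfin : LocFin74 r)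
    (φ : G K → ℂ) (hc : Continuous φ) (hφ : HasCompactSupport φ) (g : G K) :
    ∃ M : ℝ, 0 ≤ M ∧ ∀ (t : Adl K) (z : G K), ‖ker0 r φ (T3.unip K t * g) z‖ ≤ M := by
  obtain ⟨C, hC, hcov⟩ := hcoc
  have hU : IsCompact ((fun t : Adl K => T3.unip K t * g) '' C) :=
    hC.image (continuous_unip74.mul continuous_const)
  obtain ⟨M, hM0, hM⟩ := norm_ker0_le74 r hr hfin φ hc hφ _ hU
  refine ⟨M, hM0, fun t z => ?_⟩
  obtain ⟨ξ, hξ⟩ := hcov t
  rw [← ker0_unip_sub74 r φ ξ t g z]
  exact hM _ ⟨_, hξ, rfl⟩ z

/-- Every fundamental domain of `K` in `𝔸_K` has finite measure. -/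
theorem measure_fundDom_lt_top74 (hfd : T3.InFundDomC K)
    (μ' : @Measure (Adl K) (borel (Adl K)))
    (hμ' : @Measure.IsAddHaarMeasure (Adl K) _ _ (borel (Adl K)) μ') (D : Set (Adl K))
    (hD : @IsAddFundamentalDomain ((algebraMap K (Adl K)).toAddMonoidHom.range) (Adl K) _ _
      (borel (Adl K)) D μ') :
    μ' D < ⊤ := by
  letI : MeasurableSpace (Adl K) := borel (Adl K)
  have : BorelSpace (Adl K) := ⟨rfl⟩
  have : Countable ((algebraMap K (Adl K)).toAddMonoidHom.range) := countable_range74 K
  obtain ⟨D₀, -, hD₀, -, -, hfin⟩ := hfd μ' hμ'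
  rw [hD.measure_eq hD₀]
  exact hfin

/-- **Cuspidality** of `x ↦ ∫_F K_φ(x, z) f(z) dz` from the cuspidality of the kernel. -/
theorem cuspidal_range74 [LocallyCompactSpace (G K)] [SecondCountableTopology (G K)]
    [SecondCountableTopology (Adl K)]
    (hcoc : ∃ C : Set (Adl K), IsCompact C ∧ ∀ x : Adl K, ∃ ξ : K,
      x - algebraMap K (Adl K) ξ ∈ C)
    (hfd : T3.InFundDomC K)
    (μ : Measure (G K)) (F : Set (G K)) (hFm : MeasurableSet F) (hF : μ F < ⊤) (r : G K)
    (hr : ∀ g : G K, r * g = g * r) (hfin : LocFin74 r) (φ : G K → ℂ) (hc : Continuous φ)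
    (hφ : HasCompactSupport φ)
    (hcusp : ∀ z ∈ F, IsCuspidalFn (fun x => ker0 r φ x z))
    (f : G K → ℂ) (hf : MemLp f 2 (μ.restrict F)) :
    IsCuspidalFn (fun x => ∫ z in F, ker0 r φ x z * f z ∂μ) := by
  intro μ' hμ' D hD n hn g
  letI : MeasurableSpace (Adl K) := borel (Adl K)
  have : BorelSpace (Adl K) := ⟨rfl⟩
  have : BorelSpace (G K) := borelSpaceG74
  have hn' : n = T3.unip K := eq_unip74 n hn
  subst hn'
  have hDfin : μ' D < ⊤ := measure_fundDom_lt_top74 hfd μ' hμ' D hD
  have : IsFiniteMeasure (μ'.restrict D) :=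
    ⟨by rw [Measure.restrict_apply_univ]; exact hDfin⟩
  have : IsFiniteMeasure (μ.restrict F) := isFiniteMeasure_restrict74 μ F hF
  have hf1 : Integrable f (μ.restrict F) := hf.integrable one_le_two
  obtain ⟨M, -, hM⟩ := norm_ker0_unip_le74 hcoc r hr hfin φ hc hφ g
  -- the integrand on the product
  have hcontK : Continuous fun p : Adl K × G K => ker0 r φ (T3.unip K p.1 * g) p.2 := by
    have h := continuous_ker0_74 r hr hfin φ hc hφ
    have h2 : Continuous fun p : Adl K × G K => ((T3.unip K p.1 * g, p.2) : G K × G K) :=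
      Continuous.prodMk ((continuous_unip74.comp continuous_fst).mul continuous_const)
        continuous_snd
    show Continuous ((fun q : G K × G K => ker0 r φ q.1 q.2) ∘
      fun p : Adl K × G K => ((T3.unip K p.1 * g, p.2) : G K × G K))
    exact Continuous.comp h h2
  have hint : Integrable
      (Function.uncurry fun (t : Adl K) (z : G K) => ker0 r φ (T3.unip K t * g) z * f z)
      ((μ'.restrict D).prod (μ.restrict F)) := by
    have hbound : Integrable (fun p : Adl K × G K => M * ‖f p.2‖)
        ((μ'.restrict D).prod (μ.restrict F)) :=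
      Integrable.mul_prod (μ := μ'.restrict D) (ν := μ.restrict F)
        (f := fun _ : Adl K => M) (g := fun z : G K => ‖f z‖)
        (integrable_const M) hf1.norm
    refine hbound.mono' ?_ ?_
    · exact hcontK.aestronglyMeasurable.mul hf.1.comp_snd
    · refine Filter.Eventually.of_forall (fun p => ?_)
      show ‖ker0 r φ (T3.unip K p.1 * g) p.2 * f p.2‖ ≤ M * ‖f p.2‖
      rw [norm_mul]
      exact mul_le_mul_of_nonneg_right (hM p.1 p.2) (norm_nonneg _)
  show ∫ t in D, (∫ z in F, ker0 r φ (T3.unip K t * g) z * f z ∂μ) ∂μ' = 0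
  rw [integral_integral_swap hint]
  have hzero : ∀ z ∈ F, (∫ t in D, ker0 r φ (T3.unip K t * g) z * f z ∂μ') = 0 := by
    intro z hz
    rw [integral_mul_const]
    have h0 : (∫ t in D, ker0 r φ (T3.unip K t * g) z ∂μ') = 0 :=
      hcusp z hz μ' hμ' D hD (T3.unip K) (T3.unip_coe K) g
    rw [h0, zero_mul]
  rw [setIntegral_congr_fun hFm hzero]
  exact integral_zero _ _

end Fermat.Agent.LT.T5.H74

end
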