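import Fermat.Agent.LT.T5.H74.RangeAut

/-!
# Row LT, tower T5, leaf T5.04 `LeafRange` (helper74): LOCAL FINITENESS of the kernel

OFF-MAIN.  INPUT `LocFin74 r` (a compact set of `GL₂(𝔸_K)` contains finitely many elements
`γ rᵐ`, `γ ∈ GL₂(K)`, `m ∈ ℤ`: discreteness of `GL₂(K) ⟨r⟩`, output of T1).  Consequences for a
continuous `φ` of compact support and a CENTRAL `r`:

* `ker0_eq_sum74`      : on `U × U'` (`U, U'` compact) the kernel `K_φ(x, z)` is ONE finite sum;
* `continuous_ker0_74` : `(x, z) ↦ K_φ(x, z)` is continuous;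
* `norm_ker0_le74`     : `‖K_φ(x, z)‖ ≤ M` for `x ∈ U` (`U` compact) and ALL `z`.
-/

set_option autoImplicit false

open IsDedekindDomain NumberField MeasureTheory
open scoped MatrixGroups ComplexConjugate Pointwise

noncomputable section

namespace Fermat.Agent.LT.T5.H74

open Fermat.Agent.LT.H556.A0 Fermat.Agent.LT.T5

variable {K : Type} [Field K] [NumberField K]

/-- **INPUT (T1: `GL₂(K) ⟨r⟩` is discrete and closed in `GL₂(𝔸_K)`).**  A compact set contains
finitely many elements `γ rᵐ`. -/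
def LocFin74 (r : G K) : Prop :=
  ∀ C : Set (G K), IsCompact C → {p : GL (Fin 2) K × ℤ | ratG p.1 * r ^ p.2 ∈ C}.Finite

/-- The summand of the kernel. -/
def term74 (r : G K) (φ : G K → ℂ) (x z : G K) (p : GL (Fin 2) K × ℤ) : ℂ :=
  φ (x⁻¹ * ratG p.1 * z * r ^ p.2)

theorem central_zpow74 (r : G K) (hr : ∀ g : G K, r * g = g * r) (m : ℤ) (g : G K) :
    r ^ m * g = g * r ^ m :=
  ((Commute.zpow_left (show Commute r g from hr g) m)).eq

/-- If the summand does not vanish, `γ rᵐ ∈ x S z⁻¹`, `S` the support of `φ`. -/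
theorem mem_of_term_ne_zero74 (r : G K) (hr : ∀ g : G K, r * g = g * r) (φ : G K → ℂ)
    (x z : G K) (p : GL (Fin 2) K × ℤ) (h : term74 r φ x z p ≠ 0) :
    ∃ s ∈ tsupport φ, ratG p.1 * r ^ p.2 = x * s * z⁻¹ := by
  refine ⟨x⁻¹ * ratG p.1 * z * r ^ p.2, subset_tsupport _ h, ?_⟩
  have h1 : x⁻¹ * ratG p.1 * z * r ^ p.2 = x⁻¹ * (ratG p.1 * r ^ p.2) * z := by
    rw [mul_assoc (x⁻¹ * ratG p.1) z, ← central_zpow74 r hr p.2 z]
    simp only [mul_assoc]
  rw [h1]
  simp only [mul_assoc, mul_inv_cancel_left, mul_inv_cancel, mul_one]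

/-- The compact set `U S U'⁻¹`. -/
def box74 (U S U' : Set (G K)) : Set (G K) :=
  (fun t : G K × G K × G K => t.1 * t.2.1 * t.2.2⁻¹) '' (U ×ˢ S ×ˢ U')

theorem isCompact_box74 {U S U' : Set (G K)} (hU : IsCompact U) (hS : IsCompact S)
    (hU' : IsCompact U') : IsCompact (box74 U S U') := by
  apply (hU.prod (hS.prod hU')).image
  exact (continuous_fst.mul (continuous_fst.comp continuous_snd)).mul
    (continuous_snd.comp continuous_snd).inv

/-- The finite set of indices which can contribute on `U × U'`. -/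
def idx74 (r : G K) (hfin : LocFin74 r) (φ : G K → ℂ) (hφ : HasCompactSupport φ)
    (U U' : Set (G K)) (hU : IsCompact U) (hU' : IsCompact U') : Finset (GL (Fin 2) K × ℤ) :=
  (hfin _ (isCompact_box74 hU hφ hU')).toFinset

theorem term_eq_zero_of_not_mem74 (r : G K) (hr : ∀ g : G K, r * g = g * r)
    (hfin : LocFin74 r) (φ : G K → ℂ) (hφ : HasCompactSupport φ)
    (U U' : Set (G K)) (hU : IsCompact U) (hU' : IsCompact U') {x z : G K} (hx : x ∈ U)
    (hz : z ∈ U') {p : GL (Fin 2) K × ℤ} (hp : p ∉ idx74 r hfin φ hφ U U' hU hU') :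
    term74 r φ x z p = 0 := by
  by_contra h
  apply hp
  obtain ⟨s, hs, hs'⟩ := mem_of_term_ne_zero74 r hr φ x z p h
  rw [idx74, Set.Finite.mem_toFinset, Set.mem_ofPred_eq, hs']
  exact ⟨(x, s, z), ⟨hx, hs, hz⟩, rfl⟩

/-- The kernel is the sum of its terms over any finite set outside of which they vanish. -/
theorem ker0_eq_sum_of74 (r : G K) (φ : G K → ℂ) (x z : G K)
    (s : Finset (GL (Fin 2) K × ℤ)) (hs : ∀ p ∉ s, term74 r φ x z p = 0) :
    ker0 r φ x z = ∑ p ∈ s, term74 r φ x z p := by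
  have hsupp : Function.HasFiniteSupport (term74 r φ x z) := by
    apply Set.Finite.subset s.finite_toSet
    intro p hp
    by_contra hps
    exact hp (hs p hps)
  have hsum : Summable (term74 r φ x z) := summable_of_hasFiniteSupport hsupp
  have hsum' : ∀ γ : GL (Fin 2) K, Summable fun m : ℤ => term74 r φ x z (γ, m) := by
    intro γ
    apply summable_of_hasFiniteSupport
    apply Set.Finite.subset (hsupp.preimage (f := fun m : ℤ => (γ, m))
      (fun a _ b _ hab => (Prod.mk.inj hab).2))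
    intro m hm
    exact hm
  have e1 : ∑' p, term74 r φ x z p = ∑ p ∈ s, term74 r φ x z p := tsum_eq_sum hs
  rw [← e1, hsum.tsum_prod' hsum']
  rfl

/-- On `U × U'` the kernel is ONE finite sum. -/
theorem ker0_eq_sum74 (r : G K) (hr : ∀ g : G K, r * g = g * r)
    (hfin : LocFin74 r) (φ : G K → ℂ) (hφ : HasCompactSupport φ)
    (U U' : Set (G K)) (hU : IsCompact U) (hU' : IsCompact U') {x z : G K} (hx : x ∈ U)
    (hz : z ∈ U') :
    ker0 r φ x z = ∑ p ∈ idx74 r hfin φ hφ U U' hU hU', term74 r φ x z p :=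
  ker0_eq_sum_of74 r φ x z _
    (fun _ hp => term_eq_zero_of_not_mem74 r hr hfin φ hφ U U' hU hU' hx hz hp)

/-- Each summand is continuous. -/
theorem continuous_term74 (r : G K) (φ : G K → ℂ) (hc : Continuous φ)
    (p : GL (Fin 2) K × ℤ) : Continuous fun q : G K × G K => term74 r φ q.1 q.2 p := by
  unfold term74
  exact hc.comp (((continuous_fst.inv.mul continuous_const).mul continuous_snd).mul
    continuous_const)

/-- **The kernel is continuous** on `GL₂(𝔸_K) × GL₂(𝔸_K)`. -/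
theorem continuous_ker0_74 [LocallyCompactSpace (G K)] (r : G K)
    (hr : ∀ g : G K, r * g = g * r) (hfin : LocFin74 r) (φ : G K → ℂ) (hc : Continuous φ)
    (hφ : HasCompactSupport φ) :
    Continuous fun q : G K × G K => ker0 r φ q.1 q.2 := by
  rw [continuous_iff_continuousAt]
  rintro ⟨x₀, z₀⟩
  obtain ⟨U, hU, hxU⟩ := exists_compact_mem_nhds x₀
  obtain ⟨U', hU', hzU'⟩ := exists_compact_mem_nhds z₀
  have hcont : Continuous fun q : G K × G K =>
      ∑ p ∈ idx74 r hfin φ hφ U U' hU hU', term74 r φ q.1 q.2 p := by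
    apply continuous_finsetSum
    intro p _
    exact continuous_term74 r φ hc p
  refine hcont.continuousAt.congr ?_
  have hnhds : U ×ˢ U' ∈ nhds (x₀, z₀) := prod_mem_nhds hxU hzU'
  filter_upwards [hnhds] with q hq
  exact (ker0_eq_sum74 r hr hfin φ hφ U U' hU hU' hq.1 hq.2).symm

/-- A continuous function of compact support is bounded. -/
theorem exists_norm_le74 (φ : G K → ℂ) (hc : Continuous φ) (hφ : HasCompactSupport φ) :
    ∃ B : ℝ, 0 ≤ B ∧ ∀ g : G K, ‖φ g‖ ≤ B := by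
  obtain ⟨B, hB⟩ := hc.norm.bddAbove_range_of_hasCompactSupport hφ.norm
  refine ⟨B, le_trans (norm_nonneg (φ 1)) (hB ⟨1, rfl⟩), fun g => hB ⟨g, rfl⟩⟩

/-- `γ rᵐ (γ₀ rᵐ⁰)⁻¹ = (γ γ₀⁻¹) r^{m - m₀}`. -/
theorem ratG_mul_zpow_div74 (r : G K) (hr : ∀ g : G K, r * g = g * r)
    (p p₀ : GL (Fin 2) K × ℤ) :
    ratG (p.1 * p₀.1⁻¹) * r ^ (p.2 - p₀.2)
      = ratG p.1 * r ^ p.2 * (ratG p₀.1 * r ^ p₀.2)⁻¹ := by
  rw [map_mul, map_inv, zpow_sub, mul_inv_rev]
  have h1 : r ^ p.2 * ((r ^ p₀.2)⁻¹ * (ratG p₀.1)⁻¹)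
      = (ratG p₀.1)⁻¹ * (r ^ p.2 * (r ^ p₀.2)⁻¹) := by
    rw [← mul_assoc, ← zpow_neg, ← zpow_add, central_zpow74 r hr, zpow_add, zpow_neg]
  rw [mul_assoc (ratG p.1) (r ^ p.2), h1]
  simp only [mul_assoc]

/-- **Uniform bound of the kernel in the second variable.**  For `x` in a compact set and ALL
`z`: the number of non-vanishing terms of `K_φ(x, z)` is bounded by the number of `γ rᵐ` in the
compact set `U S S⁻¹ U⁻¹`. -/
theorem norm_ker0_le74 (r : G K) (hr : ∀ g : G K, r * g = g * r) (hfin : LocFin74 r)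
    (φ : G K → ℂ) (hc : Continuous φ) (hφ : HasCompactSupport φ) (U : Set (G K))
    (hU : IsCompact U) :
    ∃ M : ℝ, 0 ≤ M ∧ ∀ x ∈ U, ∀ z : G K, ‖ker0 r φ x z‖ ≤ M := by
  obtain ⟨B, hB0, hB⟩ := exists_norm_le74 φ hc hφ
  have hcomp : IsCompact (box74 (box74 U (tsupport φ) (tsupport φ)) ({1} : Set (G K)) U) :=
    isCompact_box74 (isCompact_box74 hU hφ hφ) isCompact_singleton hU
  set T : Finset (GL (Fin 2) K × ℤ) := (hfin _ hcomp).toFinset with hT
  refine ⟨T.card * B, mul_nonneg (Nat.cast_nonneg _) hB0, ?_⟩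
  intro x hx z
  -- the set of contributing indices
  set A : Set (GL (Fin 2) K × ℤ) := {p | term74 r φ x z p ≠ 0} with hA
  by_cases hne : A.Nonempty
  · obtain ⟨p₀, hp₀⟩ := hne
    set g : GL (Fin 2) K × ℤ → GL (Fin 2) K × ℤ := fun p => (p.1 * p₀.1⁻¹, p.2 - p₀.2) with hg
    have hinj : Set.InjOn g A := by
      intro a _ b _ hab
      have h1 : a.1 * p₀.1⁻¹ = b.1 * p₀.1⁻¹ := congrArg Prod.fst hab
      have h2 : a.2 - p₀.2 = b.2 - p₀.2 := congrArg Prod.snd hab
      exact Prod.ext (mul_right_cancel h1) (sub_left_inj.mp h2)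
    have hmaps : Set.MapsTo g A (T : Set (GL (Fin 2) K × ℤ)) := by
      intro p hp
      obtain ⟨s, hs, hs'⟩ := mem_of_term_ne_zero74 r hr φ x z p hp
      obtain ⟨s₀, hs₀, hs₀'⟩ := mem_of_term_ne_zero74 r hr φ x z p₀ hp₀
      rw [hT, Set.Finite.coe_toFinset, Set.mem_ofPred_eq]
      show ratG (p.1 * p₀.1⁻¹) * r ^ (p.2 - p₀.2) ∈ _
      rw [ratG_mul_zpow_div74 r hr p p₀, hs', hs₀']
      refine ⟨(x * s * s₀⁻¹, 1, x), ⟨⟨(x, s, s₀), ⟨hx, hs, hs₀⟩, rfl⟩, rfl, hx⟩, ?_⟩
      simp only [mul_inv_rev, inv_inv, mul_assoc, inv_mul_cancel_left, mul_one]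
    have hAfin : A.Finite := Set.Finite.of_injOn hmaps hinj T.finite_toSet
    have hcard : hAfin.toFinset.card ≤ T.card := by
      apply Finset.card_le_card_of_injOn g
      · intro p hp
        exact hmaps (by simpa using hp)
      · intro a ha b hb hab
        exact hinj (by simpa using ha) (by simpa using hb) hab
    rw [ker0_eq_sum_of74 r φ x z hAfin.toFinset (fun p hp => by
      by_contra h
      exact hp ((Set.Finite.mem_toFinset hAfin).mpr h))]
    calc ‖∑ p ∈ hAfin.toFinset, term74 r φ x z p‖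
        ≤ ∑ p ∈ hAfin.toFinset, ‖term74 r φ x z p‖ := norm_sum_le _ _
      _ ≤ hAfin.toFinset.card • B := Finset.sum_le_card_nsmul _ _ _ (fun p _ => hB _)
      _ = hAfin.toFinset.card * B := by rw [nsmul_eq_mul]
      _ ≤ T.card * B := by
          apply mul_le_mul_of_nonneg_right _ hB0
          exact_mod_cast hcard
  · rw [Set.not_nonempty_iff_eq_empty] at hne
    rw [ker0_eq_sum_of74 r φ x z ∅ (fun p _ => by
      by_contra h
      have : p ∈ A := h
      rw [hne] at this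
      exact this)]
    simp only [Finset.sum_empty, norm_zero]
    exact mul_nonneg (Nat.cast_nonneg _) hB0

end Fermat.Agent.LT.T5.H74

end
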